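/-
P-SS2 row 1045 (SS2-C5b PLACE-EXIST), abstract part (helper23).

`R` a noetherian local domain with fraction field `E`, maximal ideal `(p, u)`, `(p)` prime,
`p ≠ 0`, `u ∉ (p)`; `t = u - p c`.  Then the localisation `V = R_(t)` is a discrete valuation
subring of `E` containing `R`, with `V.nonunits ∩ R = (t)`, in which `p` is a unit and `t` is a
uniformiser.
-/
import Mathlib
import Fermat.Agent.H41.SS.RegTube
import Fermat.Agent.H88.KL.ValBasic

set_option autoImplicit false
set_option linter.style.haveILetI false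
set_option linter.unusedSectionVars false

noncomputable section

namespace Fermat.Agent.H23.SS2

open IsLocalRing

section Abs

variable {R : Type} [CommRing R] [IsDomain R]
variable {E : Type} [Field E] [Algebra R E] [IsFractionRing R E]

/-- The localisation of `R` at a prime `P`, as a subalgebra of the fraction field. -/
abbrev peLocRing (P : Ideal R) [P.IsPrime] : Subalgebra R E :=
  Localization.subalgebra.ofField E P.primeCompl P.primeCompl_le_nonZeroDivisors

theorem pe_mem_locRing_iff (P : Ideal R) [P.IsPrime] (x : E) :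
    x ∈ peLocRing (E := E) P ↔
      ∃ (a s : R) (_ : s ∈ P.primeCompl), x = algebraMap R E a * (algebraMap R E s)⁻¹ :=
  Iff.rfl

theorem pe_algebraMap_ne_zero {w : R} (hw : w ≠ 0) : algebraMap R E w ≠ 0 := by
  rw [Ne, map_eq_zero_iff _ (IsFractionRing.injective R E)]
  exact hw

/-- The hypothesis "every nonzero element of `E` is `t ^ n₁ w₁ / (t ^ n₂ w₂)`, `w_i ∉ P`". -/
def PeQuot (P : Ideal R) (t : R) : Prop :=
  ∀ z : E, z ≠ 0 → ∃ (n₁ n₂ : ℕ) (w₁ w₂ : R), w₁ ∉ P ∧ w₂ ∉ P ∧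
    z * (algebraMap R E t ^ n₂ * algebraMap R E w₂)
      = algebraMap R E t ^ n₁ * algebraMap R E w₁

theorem pe_mem_or_inv_mem (P : Ideal R) [P.IsPrime] (t : R) (ht0 : t ≠ 0)
    (hquot : PeQuot (E := E) P t) (x : E) :
    x ∈ peLocRing (E := E) P ∨ x⁻¹ ∈ peLocRing (E := E) P := by
  rcases eq_or_ne x 0 with rfl | hx
  · exact Or.inl (peLocRing (E := E) P).zero_mem
  obtain ⟨n₁, n₂, w₁, w₂, hw₁, hw₂, h⟩ := hquot x hx
  have hw₁0 : algebraMap R E w₁ ≠ 0 :=
    pe_algebraMap_ne_zero (fun h0 => hw₁ (h0 ▸ P.zero_mem))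
  have hw₂0 : algebraMap R E w₂ ≠ 0 :=
    pe_algebraMap_ne_zero (fun h0 => hw₂ (h0 ▸ P.zero_mem))
  have hT : algebraMap R E t ≠ 0 := pe_algebraMap_ne_zero ht0
  rcases le_or_gt n₂ n₁ with hn | hn
  · left
    rw [pe_mem_locRing_iff]
    refine ⟨t ^ (n₁ - n₂) * w₁, w₂, hw₂, ?_⟩
    obtain ⟨k, rfl⟩ := Nat.exists_eq_add_of_le hn
    rw [Nat.add_sub_cancel_left, map_mul, map_pow]
    rw [pow_add] at h
    have hTn : algebraMap R E t ^ n₂ ≠ 0 := pow_ne_zero _ hT
    have h' : x * algebraMap R E w₂ = algebraMap R E t ^ k * algebraMap R E w₁ :=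
      mul_left_cancel₀ hTn (by linear_combination h)
    rw [eq_mul_inv_iff_mul_eq₀ hw₂0]
    exact h'
  · right
    rw [pe_mem_locRing_iff]
    refine ⟨t ^ (n₂ - n₁) * w₂, w₁, hw₁, ?_⟩
    obtain ⟨k, rfl⟩ := Nat.exists_eq_add_of_le hn.le
    rw [Nat.add_sub_cancel_left, map_mul, map_pow]
    rw [pow_add] at h
    have hTn : algebraMap R E t ^ n₁ ≠ 0 := pow_ne_zero _ hT
    have h' : x * (algebraMap R E t ^ k * algebraMap R E w₂) = algebraMap R E w₁ :=
      mul_left_cancel₀ hTn (by linear_combination h)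
    rw [eq_mul_inv_iff_mul_eq₀ hw₁0, ← h', inv_mul_cancel_left₀ hx]

/-- The valuation subring `R_P`. -/
def peValSubring (P : Ideal R) [P.IsPrime] (t : R) (ht0 : t ≠ 0)
    (hquot : PeQuot (E := E) P t) : ValuationSubring E :=
  { (peLocRing (E := E) P).toSubring with
    mem_or_inv_mem' := pe_mem_or_inv_mem P t ht0 hquot }

theorem pe_mem_valSubring_iff (P : Ideal R) [P.IsPrime] (t : R) (ht0 : t ≠ 0)
    (hquot : PeQuot (E := E) P t) (x : E) :
    x ∈ peValSubring P t ht0 hquot ↔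
      ∃ (a s : R) (_ : s ∈ P.primeCompl), x = algebraMap R E a * (algebraMap R E s)⁻¹ :=
  Iff.rfl

variable (P : Ideal R) [P.IsPrime] (t : R) (ht0 : t ≠ 0) (hquot : PeQuot (E := E) P t)

theorem pe_algebraMap_mem (r : R) : algebraMap R E r ∈ peValSubring P t ht0 hquot := by
  rw [pe_mem_valSubring_iff]
  exact ⟨r, 1, P.primeCompl.one_mem, by simp⟩

theorem pe_inv_mem {w : R} (hw : w ∉ P) :
    (algebraMap R E w)⁻¹ ∈ peValSubring P t ht0 hquot := by
  rw [pe_mem_valSubring_iff]
  exact ⟨1, w, hw, by simp⟩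

theorem pe_val_eq_one {w : R} (hw : w ∉ P) :
    (peValSubring P t ht0 hquot).valuation (algebraMap R E w) = 1 := by
  have hw0 : algebraMap R E w ≠ 0 := pe_algebraMap_ne_zero (fun h0 => hw (h0 ▸ P.zero_mem))
  rw [(Fermat.Agent.H88.KLB.presents_valuation _).val_eq_one_iff hw0]
  exact ⟨pe_algebraMap_mem P t ht0 hquot w, pe_inv_mem P t ht0 hquot hw⟩

theorem pe_inv_not_mem {r : R} (hr : r ∈ P) (hr0 : r ≠ 0) :
    (algebraMap R E r)⁻¹ ∉ peValSubring P t ht0 hquot := by
  intro h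
  rw [pe_mem_valSubring_iff] at h
  obtain ⟨a, s, hs, h⟩ := h
  have hs0 : algebraMap R E s ≠ 0 := pe_algebraMap_ne_zero (fun h0 => hs (h0 ▸ P.zero_mem))
  have hr0' : algebraMap R E r ≠ 0 := pe_algebraMap_ne_zero hr0
  have h1 : algebraMap R E s = algebraMap R E (a * r) := by
    rw [map_mul]
    field_simp at h
    rw [mul_comm] at h
    exact h
  have h2 : s = a * r := IsFractionRing.injective R E h1
  exact hs (h2 ▸ P.mul_mem_left a hr)

theorem pe_val_lt_one {r : R} (hr : r ∈ P) :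
    (peValSubring P t ht0 hquot).valuation (algebraMap R E r) < 1 := by
  rcases eq_or_ne r 0 with rfl | hr0
  · simp
  have hr0' : algebraMap R E r ≠ 0 := pe_algebraMap_ne_zero hr0
  have h1 : (peValSubring P t ht0 hquot).valuation (algebraMap R E r) ≤ 1 :=
    ((peValSubring P t ht0 hquot).valuation_le_one_iff _).2 (pe_algebraMap_mem P t ht0 hquot r)
  refine lt_of_le_of_ne h1 fun h => ?_
  have := ((Fermat.Agent.H88.KLB.presents_valuation _).val_eq_one_iff hr0').1 h
  exact pe_inv_not_mem P t ht0 hquot hr hr0 this.2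

theorem pe_mem_nonunits_iff (r : R) :
    algebraMap R E r ∈ (peValSubring P t ht0 hquot).nonunits ↔ r ∈ P := by
  rw [ValuationSubring.mem_nonunits_iff]
  constructor
  · intro h
    by_contra hr
    rw [pe_val_eq_one P t ht0 hquot hr] at h
    exact lt_irrefl _ h
  · exact pe_val_lt_one P t ht0 hquot

theorem pe_discAt (htP : t ∈ P) :
    Fermat.Agent.H88.KLB.DiscAt (peValSubring P t ht0 hquot).valuation (algebraMap R E t) := by
  have hT : algebraMap R E t ≠ 0 := pe_algebraMap_ne_zero ht0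
  refine ⟨hT, pe_val_lt_one P t ht0 hquot htP, fun z hz => ?_⟩
  obtain ⟨n₁, n₂, w₁, w₂, hw₁, hw₂, h⟩ := hquot z hz
  have h1 := congrArg (peValSubring P t ht0 hquot).valuation h
  rw [map_mul, map_mul, map_mul, map_pow, map_pow, pe_val_eq_one P t ht0 hquot hw₁,
    pe_val_eq_one P t ht0 hquot hw₂, mul_one, mul_one] at h1
  refine ⟨(n₁ : ℤ) - (n₂ : ℤ), ?_⟩
  have hv0 : (peValSubring P t ht0 hquot).valuation (algebraMap R E t) ≠ 0 :=
    (Valuation.ne_zero_iff _).2 hT
  rw [zpow_sub₀ hv0, zpow_natCast, zpow_natCast, eq_div_iff (pow_ne_zero _ hv0)]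
  exact h1

theorem pe_isPrincipalIdealRing (htP : t ∈ P) :
    IsPrincipalIdealRing ↥(peValSubring P t ht0 hquot) :=
  (pe_discAt P t ht0 hquot htP).isPrincipalIdealRing
    (Fermat.Agent.H88.KLB.presents_valuation _)

theorem pe_ne_top (htP : t ∈ P) : peValSubring P t ht0 hquot ≠ ⊤ :=
  (pe_discAt P t ht0 hquot htP).ne_top (Fermat.Agent.H88.KLB.presents_valuation _)

end Abs

section Reg

variable {R : Type} [CommRing R] [IsDomain R] [IsLocalRing R] [IsNoetherianRing R]
variable {E : Type} [Field E] [Algebra R E] [IsFractionRing R E]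
variable {p u : R}

/-- **PLACE-EXIST, abstract form.**  At a regular point `(p, u)` of a noetherian local domain
`R` there is a discrete valuation subring `V ⊇ R` of the fraction field whose centre on `R` is
`(u - p c)`. -/
theorem exists_place_of_regular (hmax : maximalIdeal R = Ideal.span {p, u})
    (hprime : (Ideal.span {p}).IsPrime) (hp : p ≠ 0) (hu : u ∉ Ideal.span {p}) (c : R) :
    ∃ V : ValuationSubring E, V ≠ ⊤ ∧ IsPrincipalIdealRing ↥V ∧
      (∀ r : R, algebraMap R E r ∈ V) ∧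
      (∀ r : R, algebraMap R E r ∈ V.nonunits ↔ r ∈ Ideal.span {u - p * c}) ∧
      (∀ r : R, r ∉ Ideal.span {u - p * c} → (algebraMap R E r)⁻¹ ∈ V) := by
  haveI hP : (Ideal.span {u - p * c}).IsPrime :=
    Fermat.Agent.H71.SS.regPoint_isPrime hmax hprime hp hu c
  have ht0 : u - p * c ≠ 0 := Fermat.Agent.H41.SS.regTube_t_ne_zero hu c
  have hquot : PeQuot (E := E) (Ideal.span {u - p * c}) (u - p * c) := fun z hz =>
    Fermat.Agent.H41.SS.regTube_quot (E := E) hmax c z hz
  have htP : u - p * c ∈ Ideal.span {u - p * c} := Ideal.mem_span_singleton_self _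
  exact ⟨peValSubring _ _ ht0 hquot, pe_ne_top _ _ ht0 hquot htP,
    pe_isPrincipalIdealRing _ _ ht0 hquot htP, pe_algebraMap_mem _ _ ht0 hquot,
    pe_mem_nonunits_iff _ _ ht0 hquot, fun r hr => pe_inv_mem _ _ ht0 hquot hr⟩

end Reg

end Fermat.Agent.H23.SS2

end
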