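/-
P-SS2 row 1045 (SS2-C5b PLACE-EXIST) (helper23):
`placeExists : Fermat.Agent.H12.SS2.PlaceExistsStatement`.

At a regular point `𝔪 B_𝔪 = (ϖ, u)` of the chart `y` there is a place centred at `𝔪` at which
`u` vanishes: the discrete valuation ring `(B_𝔪)_{(u)}`.
-/
import Fermat.Agent.H23.SS2.PlaceExistAbs
import Fermat.Agent.H12.SS2.Reg11Rows

set_option autoImplicit false
set_option linter.style.haveILetI false
set_option linter.unusedSectionVars false

noncomputable section

namespace Fermat.Agent.H23.SS2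

open IsLocalRing Polynomial
open Fermat.Agent.H22.KL Fermat.Agent.H45 Fermat.Agent.H41.SS

/-- **PLACE-EXIST** (row 1045). -/
theorem placeExists : Fermat.Agent.H12.SS2.PlaceExistsStatement := by
  intro A _ _ _ E _ _ _ hinj ϖ hϖ y hy hfd 𝔪 h𝔪 hϖ𝔪 u hreg
  haveI := chartClosure_isNoetherianRing A E hinj ϖ hϖ y hy hfd
  haveI := chartClosure_isFractionRing A E y hy hfd
  haveI h𝔪p : 𝔪.IsPrime := h𝔪.isPrime
  obtain ⟨hu𝔪, hREG, hTF⟩ := hreg
  have hϖ0 : algebraMap A ↥(chartClosure A E y) ϖ ≠ 0 := by
    intro h0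
    have h1 := congrArg (Subtype.val) h0
    exact hϖ.ne_zero (hinj (by rw [map_zero]; exact h1))
  haveI := tubeLocRing_isLocalRing (E := E) 𝔪
  haveI := tubeLocRing_isNoetherianRing (E := E) 𝔪
  obtain ⟨hmax, hprime, hp, hu⟩ :=
    tubeLoc_regular (E := E) (𝔪 := 𝔪) _ u hϖ𝔪 hu𝔪 hϖ0 hREG hTF
  set R := ↥(tubeLocRing (E := E) 𝔪) with hR
  set p : R := algebraMap ↥(chartClosure A E y) R (algebraMap A ↥(chartClosure A E y) ϖ)
    with hpdef
  set u' : R := algebraMap ↥(chartClosure A E y) R u with hu'def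
  obtain ⟨V, hVtop, hVpir, hRV, hnon, hinv⟩ :=
    exists_place_of_regular (E := E) hmax hprime hp hu (0 : R)
  have ht : u' - p * 0 = u' := by rw [mul_zero, sub_zero]
  rw [ht] at hnon hinv
  have hpm : p ∈ maximalIdeal R := Fermat.Agent.H71.SS.regPoint_p_mem hmax
  have hum : u' ∈ maximalIdeal R := Fermat.Agent.H71.SS.regPoint_u_mem hmax
  have hpow : ∀ n : ℕ, p ^ n ∉ Ideal.span {u'} := by
    intro n
    have := Fermat.Agent.H71.SS.regPoint_pow_not_mem hprime hp hu hum hpm (0 : R) n
    rwa [ht] at this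
  have hPprime : (Ideal.span {u'}).IsPrime := by
    have := Fermat.Agent.H71.SS.regPoint_isPrime hmax hprime hp hu (0 : R)
    rwa [ht] at this
  -- the coercions
  have hcoeB : ∀ b : ↥(chartClosure A E y),
      algebraMap R E (algebraMap ↥(chartClosure A E y) R b) = (b : E) := fun b => rfl
  have hcoeA : ∀ a : A,
      algebraMap R E (algebraMap ↥(chartClosure A E y) R (algebraMap A ↥(chartClosure A E y) a))
        = algebraMap A E a := fun a => rfl
  refine ⟨V, ⟨⟨⟨hVtop, hVpir, ?_⟩, ?_⟩, ?_⟩, ?_⟩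
  · -- nonzero constants are units of `V`
    intro a ha
    refine ⟨by rw [← hcoeA]; exact hRV _, ?_⟩
    rw [← hcoeA]
    apply hinv
    obtain ⟨n, w, hw⟩ := IsDiscreteValuationRing.eq_unit_mul_pow_irreducible ha hϖ
    intro hmem
    have h1 : algebraMap ↥(chartClosure A E y) R (algebraMap A ↥(chartClosure A E y) a)
        = algebraMap ↥(chartClosure A E y) R (algebraMap A ↥(chartClosure A E y) (w : A))
          * p ^ n := by
      rw [hw, map_mul, map_mul, map_pow, map_pow]
    rw [h1] at hmem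
    rcases hPprime.mem_or_mem hmem with h2 | h2
    · have hunit : IsUnit (algebraMap ↥(chartClosure A E y) R
          (algebraMap A ↥(chartClosure A E y) (w : A))) :=
        (w.isUnit.map (algebraMap A ↥(chartClosure A E y))).map
          (algebraMap ↥(chartClosure A E y) R)
      exact hPprime.ne_top (Ideal.eq_top_of_isUnit_mem _ h2 hunit)
    · exact hpow n h2
  · -- `y ∈ V`
    have hyB : y ∈ chartClosure A E y := by
      have := etale_aeval_mem_chartClosure A E y (X : A[X])
      rwa [aeval_X] at this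
    have := hRV (algebraMap ↥(chartClosure A E y) R ⟨y, hyB⟩)
    rwa [hcoeB] at this
  · -- the centre
    intro s hs
    rw [← hcoeB, hnon] at hs
    have h1 : algebraMap ↥(chartClosure A E y) R s ∈ maximalIdeal R := by
      have hle : Ideal.span {u'} ≤ maximalIdeal R := by
        rw [Ideal.span_le]
        rintro x rfl
        exact hum
      exact hle hs
    exact (IsLocalization.AtPrime.to_map_mem_maximal_iff R 𝔪 s).1 h1
  · -- `u` vanishes at `V`
    have := (hnon u').2 (Ideal.mem_span_singleton_self _)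
    rwa [hcoeB] at this

end Fermat.Agent.H23.SS2

end
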